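import Fermat.Agent.HilbertDifferent.Tame
import Mathlib.FieldTheory.Finite.GaloisField
import Mathlib.LinearAlgebra.LinearIndependent.Basic
import Mathlib.RingTheory.RamificationInertia.Ramification
import Mathlib.RingTheory.Trace.Basic

/-!
# The bound of Dedekind and Hensel for the exponent of the different

An element fixed by the inertia group, supported at `P` and with suitable residue, has as trace `e`
times an element outside `P`. So the exponent of the different at `P` is less than `e + v (e)`.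
-/

set_option autoImplicit false
set_option linter.style.haveILetI false

noncomputable section

namespace FA.DecompositionGroups

open NumberField Finset FA.HilbertDifferent
open scoped Pointwise

variable (K : Type*) {L : Type*} [Field K] [NumberField K] [Field L] [NumberField L] [Algebra K L]
  [IsGalois K L]

/-- A residue lifts to an element fixed by inertia and supported at `P`. -/
theorem exists_fixed (P : Ideal (𝓞 L)) [hP : P.IsMaximal] (r : 𝓞 L ⧸ P) :
    ∃ y : 𝓞 L, (∀ h ∈ P.inertia (L ≃ₐ[K] L), h • y = y) ∧ Ideal.Quotient.mk P y = r ∧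
      ∀ g : L ≃ₐ[K] L, g • P ≠ P → y ∈ g • P := by
  classical
  set I := P.inertia (L ≃ₐ[K] L)
  haveI : SMulCommClass I (𝓞 K) (𝓞 L) := ⟨fun h a b => smul_comm h.1 a b⟩
  let A' := FixedPoints.subalgebra (𝓞 K) (𝓞 L) I
  haveI : Algebra.IsInvariant A' (𝓞 L) I := ⟨fun b hb => ⟨⟨b, hb⟩, rfl⟩⟩
  haveI : SMulCommClass I A' (𝓞 L) := ⟨fun h a b => by
    simp only [Algebra.smul_def, smul_mul']
    congr 1
    exact a.2 h⟩
  haveI : Algebra.IsIntegral A' (𝓞 L) := Algebra.IsInvariant.isIntegral A' (𝓞 L) I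
  haveI : (P.under A').IsMaximal := Ideal.IsMaximal.under A' P
  letI := Ideal.Quotient.field P
  letI := Ideal.Quotient.field (P.under A')
  haveI : Finite (𝓞 L ⧸ P) := Ring.HasFiniteQuotients.finiteQuotient (ne_bot_of_isMaximal P)
  haveI : Module.Finite (A' ⧸ P.under A') (𝓞 L ⧸ P) := Module.Finite.of_finite
  haveI : Subsingleton ((𝓞 L ⧸ P) ≃ₐ[A' ⧸ P.under A'] (𝓞 L ⧸ P)) := by
    refine subsingleton_of_forall_eq 1 fun σ => ?_
    obtain ⟨g, rfl⟩ := Ideal.Quotient.stabilizerHom_surjective I (P.under A') P σ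
    refine AlgEquiv.ext fun x => ?_
    obtain ⟨x, rfl⟩ := Ideal.Quotient.mk_surjective x
    exact Ideal.Quotient.eq.2 (g.1.2 x)
  have h1 : Module.finrank (A' ⧸ P.under A') (𝓞 L ⧸ P) = 1 := by
    rw [← IsGalois.card_aut_eq_finrank, Nat.card_eq_one_iff_unique]
    exact ⟨inferInstance, ⟨1⟩⟩
  obtain ⟨c, hc⟩ := exists_smul_eq_of_finrank_eq_one h1 one_ne_zero r
  obtain ⟨a, rfl⟩ := Ideal.Quotient.mk_surjective c
  have ha : Ideal.Quotient.mk P (a : 𝓞 L) = r := by
    rw [← hc, Algebra.smul_def, mul_one]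
    rfl
  obtain ⟨z, hz1, hz⟩ := exists_crt K P
  set Z := ∏ h : I, h.1 • z
  have hfix : ∀ h : I, h.1 • Z = Z := fun h => by
    rw [Finset.smul_prod']
    simp only [← mul_smul]
    exact Fintype.prod_equiv (Equiv.mulLeft h) _ _ fun _ => rfl
  refine ⟨a * Z, fun h hh => ?_, ?_, fun g hg => ?_⟩
  · rw [smul_mul', hfix ⟨h, hh⟩]
    congr 1
    exact a.2 ⟨h, hh⟩
  · rw [map_mul, ha, map_prod, prod_eq_one fun h _ => ?_, mul_one]
    rw [(Ideal.Quotient.eq.2 (h.2 z) : Ideal.Quotient.mk P (h.1 • z) = Ideal.Quotient.mk P z),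
      ← map_one (Ideal.Quotient.mk P)]
    exact Ideal.Quotient.eq.2 hz1
  · refine Ideal.mul_mem_left _ _ (Ideal.mem_of_dvd _ (dvd_prod_of_mem _ (mem_univ (1 : I))) ?_)
    rw [OneMemClass.coe_one, one_smul]
    exact hz g hg

/-- The integral trace is the sum of the conjugates. -/
theorem algebraMap_intTrace_eq_sum (x : 𝓞 L) :
    algebraMap (𝓞 K) (𝓞 L) (Algebra.intTrace (𝓞 K) (𝓞 L) x) = ∑ g : L ≃ₐ[K] L, g • x := by
  refine RingOfIntegers.coe_injective (K := L) ?_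
  rw [← IsScalarTower.algebraMap_apply, IsScalarTower.algebraMap_apply (𝓞 K) K L,
    Algebra.algebraMap_intTrace (A := 𝓞 K) (K := K) (L := L), trace_eq_sum_automorphisms, map_sum]
  rfl

/-- The valuation of an ideal from downstairs is a multiple of `e`. -/
theorem emultiplicity_map (P : Ideal (𝓞 L)) [hP : P.IsMaximal] {J : Ideal (𝓞 K)} (hJ : J ≠ ⊥) :
    emultiplicity P (J.map (algebraMap (𝓞 K) (𝓞 L))) =
      (Nat.card (P.inertia (L ≃ₐ[K] L)) : ℕ∞) * emultiplicity (P.under (𝓞 K)) J := by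
  haveI : (P.under (𝓞 K)).IsMaximal := Ideal.IsMaximal.under (𝓞 K) P
  have hp0 : P.under (𝓞 K) ≠ ⊥ := fun h =>
    RingOfIntegers.not_isField K (Ring.isField_iff_maximal_bot.2 (h ▸ inferInstance))
  rw [Ideal.IsDedekindDomain.emultiplicity_map_eq_ramificationIdx'_mul hJ
    (Ideal.prime_of_isPrime hp0 inferInstance).irreducible
    (Ideal.prime_of_isPrime (ne_bot_of_isMaximal P) hP.isPrime).irreducible
    (ne_bot_of_isMaximal P), Ideal.ramificationIdx'_eq_ramificationIdx (P.under (𝓞 K)) P hp0,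
    Ideal.card_inertia_eq_ramificationIdxIn (G := L ≃ₐ[K] L) (P.under (𝓞 K)) P,
    Ideal.ramificationIdxIn_eq_ramificationIdx (P.under (𝓞 K)) P (L ≃ₐ[K] L)]

/-- **The trace of some element supported at `P` is exactly divisible like `e`.** -/
theorem not_dvd_differentIdeal (P : Ideal (𝓞 L)) [hP : P.IsMaximal] {w : ℕ}
    (hw : (Nat.card (P.inertia (L ≃ₐ[K] L)) : 𝓞 L) ∉
      P ^ (Nat.card (P.inertia (L ≃ₐ[K] L)) * w + 1)) :
    ¬ P ^ (Nat.card (P.inertia (L ≃ₐ[K] L)) * (w + 1)) ∣ differentIdeal (𝓞 K) (𝓞 L) := by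
  classical
  set I := P.inertia (L ≃ₐ[K] L)
  set e := Nat.card I
  set p := P.under (𝓞 K)
  haveI : p.IsMaximal := Ideal.IsMaximal.under (𝓞 K) P
  letI := Ideal.Quotient.field P
  -- the other factor of `p ^ (w + 1)`
  have hp0 : p ≠ ⊥ := fun h =>
    RingOfIntegers.not_isField K (Ring.isField_iff_maximal_bot.2 (h ▸ inferInstance))
  set M := (p ^ (w + 1)).map (algebraMap (𝓞 K) (𝓞 L))
  have hv : emultiplicity P M = ((e * (w + 1) : ℕ) : ℕ∞) := by
    rw [emultiplicity_map K P (pow_ne_zero _ hp0), emultiplicity_pow_self hp0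
      (fun h => (inferInstance : p.IsMaximal).ne_top (Ideal.isUnit_iff.1 h)), Nat.cast_mul]
  obtain ⟨Q, hQ⟩ := pow_dvd_of_le_emultiplicity hv.ge
  have hQP : ¬ Q ≤ P := fun h => by
    obtain ⟨R, rfl⟩ := Ideal.dvd_iff_le.2 h
    have := le_emultiplicity_of_pow_dvd (a := P) (b := M) (k := e * (w + 1) + 1)
      ⟨R, by rw [hQ, pow_succ, mul_assoc]⟩
    rw [hv, Nat.cast_le] at this
    omega
  have hQ0 : Q ≠ ⊥ := fun h => by
    rw [h, Ideal.mul_bot] at hQ
    exact pow_ne_zero _ hp0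
      ((Ideal.map_eq_bot_iff_of_injective (FaithfulSMul.algebraMap_injective _ _)).1 hQ)
  -- residues with non-zero trace
  set D := MulAction.stabilizer (L ≃ₐ[K] L) P
  let ψ := Ideal.Quotient.stabilizerHom P p (L ≃ₐ[K] L)
  let S := {q : (L ≃ₐ[K] L) ⧸ I // q.out ∈ D}
  let f : S → ((𝓞 L ⧸ P) →* (𝓞 L ⧸ P)) := fun q =>
    MonoidHomClass.toMonoidHom (ψ ⟨q.1.out, q.2⟩)
  have hf : Function.Injective f := fun q q' h => by
    have h1 : ψ ⟨q.1.out, q.2⟩ = ψ ⟨q'.1.out, q'.2⟩ :=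
      AlgEquiv.ext fun x => DFunLike.congr_fun h x
    refine Subtype.ext ?_
    rw [← q.1.out_eq', ← q'.1.out_eq', QuotientGroup.eq]
    show (q.1.out⁻¹ * q'.1.out : L ≃ₐ[K] L) ∈ P.inertia _
    rw [← Ideal.Quotient.map_ker_stabilizer_subtype P p (G := L ≃ₐ[K] L)]
    refine ⟨⟨q.1.out, q.2⟩⁻¹ * ⟨q'.1.out, q'.2⟩, ?_, rfl⟩
    change ψ _ = 1
    rw [map_mul, map_inv, h1, inv_mul_cancel]
  have hone : ((1 : L ≃ₐ[K] L) : (L ≃ₐ[K] L) ⧸ I).out ∈ D := by
    obtain ⟨h, hh⟩ := QuotientGroup.mk_out_eq_mul I (1 : L ≃ₐ[K] L)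
    rw [hh, one_mul]
    exact Ideal.inertia_le_stabilizer P h.2
  obtain ⟨r, hr⟩ : ∃ r, ∑ q : S, f q r ≠ 0 := by
    by_contra! h
    exact one_ne_zero (Fintype.linearIndependent_iff.1
      ((linearIndependent_monoidHom (𝓞 L ⧸ P) (𝓞 L ⧸ P)).comp f hf) (fun _ => 1)
      (funext fun z => by simpa [Finset.sum_apply] using h z) ⟨_, hone⟩)
  -- the element
  obtain ⟨y, hy, hyr, hyQ⟩ := exists_fixed K P r
  obtain ⟨Z, hZ, hZ1, hZQ⟩ := exists_fixed K P 1
  obtain ⟨k, hk⟩ : Z ∈ Q.radical := by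
    rw [Ideal.radical_eq_sInf, Submodule.mem_sInf]
    intro (M' : Ideal (𝓞 L)) ⟨hQM, hM'⟩
    haveI := hM'.isMaximal fun h => hQ0 (le_bot_iff.1 (hQM.trans h.le))
    have hle : p ≤ M'.under (𝓞 K) :=
      Ideal.IsPrime.le_of_pow_le (n := w + 1) fun x hx =>
        hQM ((hQ.le.trans Ideal.mul_le_right) (Ideal.mem_map_of_mem _ hx))
    obtain ⟨g, rfl⟩ := Algebra.IsInvariant.exists_smul_of_under_eq (𝓞 K) (𝓞 L) (L ≃ₐ[K] L) P M'
      ((inferInstance : p.IsMaximal).eq_of_le Ideal.IsPrime.ne_top' hle)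
    exact hZQ g fun h => hQP (h ▸ hQM)
  set x := y * Z ^ k
  have hxI : ∀ h ∈ I, h • x = x := fun h hh => by rw [smul_mul', smul_pow', hy h hh, hZ h hh]
  have hxr : Ideal.Quotient.mk P x = r := by rw [map_mul, map_pow, hyr, hZ1, one_pow, mul_one]
  set T := ∑ q : (L ≃ₐ[K] L) ⧸ I, q.out • x
  have hT : T ∉ P := fun hmem => hr (by
    rw [← Ideal.Quotient.eq_zero_iff_mem, map_sum,
      ← Finset.sum_filter_add_sum_filter_not univ (fun q : (L ≃ₐ[K] L) ⧸ I => q.out ∈ D),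
      Finset.sum_eq_zero (s := univ.filter fun q : (L ≃ₐ[K] L) ⧸ I => ¬ q.out ∈ D) fun q hq => ?_,
      add_zero, Finset.sum_subtype (p := fun q : (L ≃ₐ[K] L) ⧸ I => q.out ∈ D) _
        (fun q => by simp)] at hmem
    · rw [← hmem]
      refine sum_congr rfl fun q _ => ?_
      rw [← hxr]
      rfl
    · rw [Ideal.Quotient.eq_zero_iff_mem]
      have hq' : q.out⁻¹ • P ≠ P := fun h => (mem_filter.1 hq).2
        (D.inv_mem_iff.1 (MulAction.mem_stabilizer_iff.2 h))
      have := Ideal.mul_mem_right (Z ^ k) _ (hyQ _ hq')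
      rwa [Ideal.mem_inv_pointwise_smul_iff] at this)
  have hsum : ∑ g : L ≃ₐ[K] L, g • x = T * (e : 𝓞 L) := by
    let c : ((L ≃ₐ[K] L) ⧸ I) × I → (L ≃ₐ[K] L) := fun c => c.1.out * c.2
    have hc : Function.Bijective c := by
      refine (Fintype.bijective_iff_injective_and_card c).2 ⟨fun a b hab => ?_, ?_⟩
      · have h1 : a.1 = b.1 := by
          simpa [c, QuotientGroup.mk_mul_of_mem] using congrArg (QuotientGroup.mk (s := I)) hab
        simp only [c, h1] at hab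
        exact Prod.ext h1 (Subtype.ext (mul_left_cancel hab))
      · simp only [← Nat.card_eq_fintype_card, Nat.card_prod]
        exact I.card_eq_card_quotient_mul_card_subgroup.symm
    rw [← hc.sum_comp, Fintype.sum_prod_type, Finset.sum_mul]
    refine sum_congr rfl fun q _ => ?_
    simp only [c, mul_smul, fun i : I => hxI i.1 i.2, sum_const, card_univ, nsmul_eq_mul,
      ← Nat.card_eq_fintype_card]
    rw [mul_comm]
  refine not_dvd_differentIdeal_of_intTrace_not_mem (𝓞 K) (p := p ^ (w + 1))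
    (P ^ (e * (w + 1))) Q hQ.symm x (Ideal.mul_mem_left _ _ hk) fun htr => ?_
  have h1 : algebraMap (𝓞 K) (𝓞 L) (Algebra.intTrace (𝓞 K) (𝓞 L) x) ∈ P ^ (e * w + 1) :=
    Ideal.pow_le_pow_right (by
      have : 0 < e := Nat.card_pos
      nlinarith)
      ((hQ.le.trans Ideal.mul_le_left) (Ideal.mem_map_of_mem _ htr))
  rw [algebraMap_intTrace_eq_sum, hsum] at h1
  exact hw ((Ideal.IsPrime.mul_mem_pow P h1).resolve_left hT)

/-- **The bounds of Dedekind and Hensel.** -/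
theorem dedekind_hensel_bound (P : Ideal (𝓞 L)) [hP : P.IsMaximal] :
    ((Nat.card (P.inertia (L ≃ₐ[K] L)) - 1 : ℕ) : ℕ∞) ≤
        emultiplicity P (differentIdeal (𝓞 K) (𝓞 L)) ∧
      emultiplicity P (differentIdeal (𝓞 K) (𝓞 L)) ≤
        ((Nat.card (P.inertia (L ≃ₐ[K] L)) - 1 : ℕ) : ℕ∞) +
          emultiplicity P (Ideal.span {(Nat.card (P.inertia (L ≃ₐ[K] L)) : 𝓞 L)}) := by
  obtain ⟨h₁, h₂⟩ := dedekind_different K P
  constructor
  · by_cases h : ramGroup K P 1 = ⊥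
    · exact (h₁.2 h).ge
    · exact le_trans (by exact_mod_cast Nat.sub_le _ _) (le_emultiplicity_of_pow_dvd (h₂.2 h))
  set e := Nat.card (P.inertia (L ≃ₐ[K] L))
  have he : 0 < e := Nat.card_pos
  set J := Ideal.span {(e : 𝓞 K)}
  have hJ : J ≠ ⊥ := by
    rw [Ne, Ideal.span_singleton_eq_bot, Nat.cast_eq_zero]
    omega
  have hp : ¬ IsUnit (P.under (𝓞 K)) := fun h =>
    (Ideal.IsMaximal.under (𝓞 K) P).ne_top (Ideal.isUnit_iff.1 h)
  have hfin : FiniteMultiplicity (P.under (𝓞 K)) J :=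
    FiniteMultiplicity.of_not_isUnit hp hJ
  have hmap : J.map (algebraMap (𝓞 K) (𝓞 L)) = Ideal.span {(e : 𝓞 L)} := by
    rw [Ideal.map_span, Set.image_singleton, map_natCast]
  set w := multiplicity (P.under (𝓞 K)) J
  have hv : emultiplicity P (Ideal.span {(e : 𝓞 L)}) = ((e * w : ℕ) : ℕ∞) := by
    rw [← hmap, Nat.cast_mul, ← hfin.emultiplicity_eq_multiplicity]
    exact emultiplicity_map K P hJ
  have hw : (e : 𝓞 L) ∉ P ^ (e * w + 1) := fun h => by
    have := le_emultiplicity_of_pow_dvd (Ideal.dvd_span_singleton.2 h)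
    rw [hv, Nat.cast_le] at this
    omega
  have hlt := emultiplicity_lt_iff_not_dvd.2 (not_dvd_differentIdeal K P hw)
  rw [hv, ← Nat.cast_add]
  refine ENat.lt_natCast_add_one_iff.1 (hlt.trans_le ?_)
  exact_mod_cast (show e * (w + 1) ≤ e - 1 + e * w + 1 by rw [Nat.mul_add, mul_one]; omega)

end FA.DecompositionGroups

end
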