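import Fermat.Agent.DecompositionGroups.Filtration
import Mathlib.RingTheory.Ideal.Over

/-!
# Consequences of the solvability of decomposition groups

The index of `G 1` in the inertia group is prime to the residue characteristic, and in an extension
whose group is not solvable every prime downstairs has several primes above it, so it is neither
inert nor totally ramified.
-/

set_option autoImplicit false
set_option linter.style.haveILetI false

noncomputable section

namespace FA.DecompositionGroups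

open NumberField FA.HilbertDifferent
open scoped Pointwise

variable (K : Type*) {L : Type*} [Field K] [NumberField K] [Field L] [NumberField L] [Algebra K L]
  [IsGalois K L]

/-- The index of `G 1` is prime to `p`. -/
theorem coprime_index (P : Ideal (𝓞 L)) [hP : P.IsMaximal] (p : ℕ) [CharP (𝓞 L ⧸ P) p]
    [hp : Fact p.Prime] :
    ((ramGroup K P 1).relIndex (P.inertia (L ≃ₐ[K] L))).Coprime p := by
  letI := Ideal.Quotient.field P
  haveI : Finite (𝓞 L ⧸ P) := Ring.HasFiniteQuotients.finiteQuotient (ne_bot_of_isMaximal P)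
  letI := Fintype.ofFinite (𝓞 L ⧸ P)
  rw [Nat.coprime_comm, hp.out.coprime_iff_not_dvd]
  intro h
  have h1 : p ∣ Nat.card (𝓞 L ⧸ P) := by
    rw [← CharP.cast_eq_zero_iff (𝓞 L ⧸ P) p, Nat.card_eq_fintype_card,
      FiniteField.cast_card_eq_zero]
  have h2 : 0 < Nat.card (𝓞 L ⧸ P) := Nat.card_pos
  have h3 := Nat.dvd_sub h1 (h.trans (index_ramGroup_one K P))
  rw [Nat.sub_sub_self h2] at h3
  exact hp.out.ne_one (Nat.dvd_one.1 h3)

/-- **No prime has a full decomposition group.** -/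
theorem exists_smul_ne (hG : ¬ Group.IsSolvable (L ≃ₐ[K] L)) (P : Ideal (𝓞 L))
    [hP : P.IsMaximal] : ∃ g : L ≃ₐ[K] L, g • P ≠ P := by
  by_contra! h
  haveI := isSolvable_stabilizer K P
  exact hG (Group.isSolvable_of_surjective
    (f := (MulAction.stabilizer (L ≃ₐ[K] L) P).subtype) fun g =>
      ⟨⟨g, MulAction.mem_stabilizer_iff.2 (h g)⟩, rfl⟩)

/-- The inertia group is proper. -/
theorem card_inertia_lt (hG : ¬ Group.IsSolvable (L ≃ₐ[K] L)) (P : Ideal (𝓞 L))
    [hP : P.IsMaximal] : Nat.card (P.inertia (L ≃ₐ[K] L)) < Module.finrank K L := by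
  obtain ⟨g, hg⟩ := exists_smul_ne K hG P
  rw [← IsGalois.card_aut_eq_finrank K L]
  refine lt_of_le_of_ne (Subgroup.card_le_card_group _) fun h => hg ?_
  have htop := Subgroup.eq_top_of_card_eq _ h
  exact MulAction.mem_stabilizer_iff.1
    (Ideal.inertia_le_stabilizer P (htop ▸ Subgroup.mem_top g : g ∈ P.inertia (L ≃ₐ[K] L)))

/-- **Several primes above every prime.** -/
theorem one_lt_ncard_primesOver (hG : ¬ Group.IsSolvable (L ≃ₐ[K] L)) (p : Ideal (𝓞 K))
    [hp : p.IsMaximal] :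
    1 < (p.primesOver (𝓞 L)).ncard ∧ ¬ (p.map (algebraMap (𝓞 K) (𝓞 L))).IsPrime := by
  obtain ⟨P, hP, hPp⟩ := Ideal.exists_ideal_over_maximal_of_isIntegral (S := 𝓞 L) p (by
    rw [(RingHom.injective_iff_ker_eq_bot _).1 (FaithfulSMul.algebraMap_injective (𝓞 K) (𝓞 L))]
    exact bot_le)
  obtain ⟨g, hg⟩ := exists_smul_ne K hG P
  haveI hgm : (g • P).IsMaximal :=
    Ideal.map_isMaximal_of_equiv (MulSemiringAction.toRingEquiv (L ≃ₐ[K] L) (𝓞 L) g) (p := P)
  have hgp : (g • P).under (𝓞 K) = p := (Ideal.under_smul _ _ _).trans hPp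
  have hp0 : p ≠ ⊥ := fun h =>
    RingOfIntegers.not_isField K (Ring.isField_iff_maximal_bot.2 (h ▸ hp))
  refine ⟨(Set.one_lt_ncard (IsDedekindDomain.primesOver_finite p (𝓞 L))).2
    ⟨P, ⟨hP.isPrime, ⟨hPp.symm⟩⟩, g • P, ⟨hgm.isPrime, ⟨hgp.symm⟩⟩, hg.symm⟩, fun h => hg ?_⟩
  have h0 : p.map (algebraMap (𝓞 K) (𝓞 L)) ≠ ⊥ := fun e => hp0
    ((Ideal.map_eq_bot_iff_of_injective (FaithfulSMul.algebraMap_injective _ _)).1 e)
  haveI := h.isMaximal h0
  rw [← (inferInstance : (p.map (algebraMap (𝓞 K) (𝓞 L))).IsMaximal).eq_of_le hgm.ne_top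
    (Ideal.map_le_iff_le_comap.2 hgp.ge)]
  exact (inferInstance : (p.map (algebraMap (𝓞 K) (𝓞 L))).IsMaximal).eq_of_le hP.ne_top
    (Ideal.map_le_iff_le_comap.2 hPp.ge)

end FA.DecompositionGroups

end
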