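import Fermat.Agent.HilbertDifferent.Tame
import Mathlib.GroupTheory.Solvable
import Mathlib.GroupTheory.Nilpotent
import Mathlib.RingTheory.IntegralDomain
import Mathlib.FieldTheory.Finite.Extension

/-!
# The first two steps of the inertia filtration and solvability

The inertia group acts on a uniformiser modulo `P ^ 2` through units of the residue field, with
kernel `G 1`, and `G 1` is a `p`-group, `p` the residue characteristic. So the inertia group and,
the residue extension being abelian, the decomposition group are solvable.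
-/

set_option autoImplicit false
set_option linter.style.haveILetI false

noncomputable section

namespace FA.DecompositionGroups

open NumberField Polynomial Finset FA.HilbertDifferent
open scoped Pointwise

variable (K : Type*) {L : Type*} [Field K] [NumberField K] [Field L] [NumberField L] [Algebra K L]
  [IsGalois K L]

/-- **`G 1` is a `p`-group.** -/
theorem isPGroup_ramGroup_one (P : Ideal (𝓞 L)) [hP : P.IsMaximal] (p : ℕ) [CharP (𝓞 L ⧸ P) p]
    [hp : Fact p.Prime] : IsPGroup p (ramGroup K P 1) := by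
  rintro ⟨g, hg⟩
  set a := (orderOf g).factorization p
  refine ⟨a, Subtype.ext (?_ : g ^ p ^ a = 1)⟩
  refine eq_one_of_mem_ramGroup_one K (pow_mem hg _) ?_
  rw [orderOf_pow_of_dvd (pow_ne_zero _ hp.out.ne_zero) (Nat.ordProj_dvd _ _), Ne,
    CharP.cast_eq_zero_iff (𝓞 L ⧸ P) p]
  exact Nat.not_dvd_ordCompl hp.out (orderOf_pos g).ne'

/-- **The character on the uniformiser.** -/
theorem exists_character (P : Ideal (𝓞 L)) [hP : P.IsMaximal] :
    ∃ χ : P.inertia (L ≃ₐ[K] L) →* (𝓞 L ⧸ P)ˣ,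
      χ.ker = (ramGroup K P 1).subgroupOf (P.inertia (L ≃ₐ[K] L)) := by
  classical
  obtain ⟨α, r, hα, hr1, hr2, hr3⟩ := exists_generator K P
  set π := aeval α r
  have hex : ∀ g : P.inertia (L ≃ₐ[K] L), ∃ u, g.1 • π - u * π ∈ P ^ 2 := fun g => by
    obtain ⟨c, e, he, hce⟩ := Ideal.exists_mul_add_mem_pow_succ (i := 1) (ne_bot_of_isMaximal P) π
      (g.1 • π) (by simpa using hr1) (by simpa using hr2)
      (by simpa using smul_mem_pow K (n := 1) g.2 (by simpa using hr1))
    exact ⟨c, by rw [← hce]; simpa [mul_comm] using he⟩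
  choose u hu using hex
  have huniq : ∀ g v, g.1 • π - v * π ∈ P ^ 2 →
      Ideal.Quotient.mk P (u g) = Ideal.Quotient.mk P v := fun g v h => by
    have h2 := (P ^ 2).sub_mem h (hu g)
    rw [show g.1 • π - v * π - (g.1 • π - u g * π) = (u g - v) * π by ring] at h2
    exact Ideal.Quotient.eq.2 ((Ideal.IsPrime.mul_mem_pow P h2).resolve_right hr2)
  let χ₀ : P.inertia (L ≃ₐ[K] L) →* 𝓞 L ⧸ P :=
    { toFun := fun g => Ideal.Quotient.mk P (u g)
      map_one' := by rw [huniq 1 1 (by simp), map_one]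
      map_mul' := fun g h => by
        rw [← map_mul]
        refine huniq _ _ ?_
        rw [Subgroup.coe_mul, mul_smul, show g.1 • h.1 • π - u g * u h * π =
            g.1 • (h.1 • π - u h * π) + (g.1 • u h - u h) * g.1 • π + u h * (g.1 • π - u g * π) by
          rw [smul_sub, smul_mul']; ring]
        refine Ideal.add_mem _ (Ideal.add_mem _ (smul_mem_pow K g.2 (hu h)) ?_)
          (Ideal.mul_mem_left _ _ (hu g))
        rw [pow_two]
        exact Ideal.mul_mem_mul (g.2 _) (by simpa using P.add_mem (g.2 π) hr1) }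
  refine ⟨χ₀.toHomUnits, Subgroup.ext fun g => ?_⟩
  rw [MonoidHom.mem_ker, Units.ext_iff, MonoidHom.coe_toHomUnits, Units.val_one,
    Subgroup.mem_subgroupOf]
  change Ideal.Quotient.mk P (u g) = 1 ↔ g.1 ∈ ramGroup K P 1
  constructor
  · intro h
    have h1 : g.1 • π - π ∈ P ^ 2 := by
      rw [show g.1 • π - π = (g.1 • π - u g * π) + (u g - 1) * π by ring]
      refine Ideal.add_mem _ (hu g) ?_
      rw [pow_two]
      exact Ideal.mul_mem_mul (Ideal.Quotient.eq.1 (h.trans (map_one _).symm)) hr1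
    have h2 := aeval_add_sub_mem K r α (g.2 α)
    rw [add_sub_cancel, ← smul_aeval] at h2
    have h3 := (P ^ 2).sub_mem h1 h2
    rw [show g.1 • π - π - (g.1 • π - (π + aeval α (derivative r) * (g.1 • α - α))) =
      aeval α (derivative r) * (g.1 • α - α) by ring] at h3
    rw [ramGroup, mem_inertia_iff K hα]
    exact (Ideal.IsPrime.mul_mem_pow P h3).resolve_left hr3
  · intro h
    rw [huniq g 1 (by rw [one_mul]; exact h π), map_one]

/-- The inertia group modulo `G 1` is cyclic of order prime to `p`, dividing `q - 1`. -/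
theorem index_ramGroup_one (P : Ideal (𝓞 L)) [hP : P.IsMaximal] :
    (ramGroup K P 1).relIndex (P.inertia (L ≃ₐ[K] L)) ∣ Nat.card (𝓞 L ⧸ P) - 1 := by
  classical
  letI := Ideal.Quotient.field P
  haveI : Finite (𝓞 L ⧸ P) := Ring.HasFiniteQuotients.finiteQuotient (ne_bot_of_isMaximal P)
  obtain ⟨χ, hχ⟩ := exists_character K P
  rw [Subgroup.relIndex, ← hχ, Subgroup.index_ker, ← Nat.card_units]
  exact Subgroup.card_subgroup_dvd_card _

/-- The quotient is cyclic. -/
theorem isCyclic_inertia_quotient (P : Ideal (𝓞 L)) [hP : P.IsMaximal] :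
    ∃ _ : ((ramGroup K P 1).subgroupOf (P.inertia (L ≃ₐ[K] L))).Normal,
      IsCyclic (P.inertia (L ≃ₐ[K] L) ⧸
        (ramGroup K P 1).subgroupOf (P.inertia (L ≃ₐ[K] L))) := by
  letI := Ideal.Quotient.field P
  haveI : Finite (𝓞 L ⧸ P) := Ring.HasFiniteQuotients.finiteQuotient (ne_bot_of_isMaximal P)
  obtain ⟨χ, hχ⟩ := exists_character K P
  rw [← hχ]
  exact ⟨inferInstance, isCyclic_of_injective (QuotientGroup.kerLift χ)
    (QuotientGroup.kerLift_injective χ)⟩

omit [NumberField K] [NumberField L] [IsGalois K L] in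
/-- **`G n` is normal in the decomposition group.** -/
theorem ramGroup_normal (P : Ideal (𝓞 L)) (n : ℕ) :
    ((ramGroup K P n).subgroupOf (MulAction.stabilizer (L ≃ₐ[K] L) P)).Normal := by
  refine ⟨fun g hg d x => ?_⟩
  have hd : d.1 • P ^ (n + 1) = P ^ (n + 1) := by
    have h : (Ideal.map (MulSemiringAction.toRingHom (L ≃ₐ[K] L) (𝓞 L) d.1) (P ^ (n + 1))) =
        P ^ (n + 1) := by
      rw [Ideal.map_pow]
      exact congrArg (· ^ (n + 1)) (MulAction.mem_stabilizer_iff.1 d.2)
    exact h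
  rw [Subgroup.mem_subgroupOf] at hg
  change (d.1 * g.1 * d.1⁻¹) • x - x ∈ P ^ (n + 1)
  rw [mul_smul, mul_smul, show d.1 • g.1 • d.1⁻¹ • x - x = d.1 • (g.1 • d.1⁻¹ • x - d.1⁻¹ • x) by
    rw [smul_sub (d.1), smul_inv_smul]]
  rw [← hd]
  exact Ideal.smul_mem_pointwise_smul _ _ _ (hg _)

/-- **The decomposition group is solvable.** -/
theorem isSolvable_stabilizer (P : Ideal (𝓞 L)) [hP : P.IsMaximal] :
    Group.IsSolvable (MulAction.stabilizer (L ≃ₐ[K] L) P) := by
  classical
  letI := Ideal.Quotient.field P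
  haveI : (P.under (𝓞 K)).IsMaximal := Ideal.IsMaximal.under (𝓞 K) P
  letI := Ideal.Quotient.field (P.under (𝓞 K))
  haveI : Finite (𝓞 L ⧸ P) := Ring.HasFiniteQuotients.finiteQuotient (ne_bot_of_isMaximal P)
  haveI : Module.Finite (𝓞 K ⧸ P.under (𝓞 K)) (𝓞 L ⧸ P) := Module.Finite.of_finite
  haveI : Finite (𝓞 K ⧸ P.under (𝓞 K)) :=
    Finite.of_injective _ (algebraMap (𝓞 K ⧸ P.under (𝓞 K)) (𝓞 L ⧸ P)).injective
  set D := MulAction.stabilizer (L ≃ₐ[K] L) P
  let ψ := Ideal.Quotient.stabilizerHom P (P.under (𝓞 K)) (L ≃ₐ[K] L)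
  set I := P.inertia (L ≃ₐ[K] L)
  obtain ⟨p, hchar⟩ := CharP.exists (𝓞 L ⧸ P)
  haveI : Fact p.Prime := ⟨CharP.char_is_prime (𝓞 L ⧸ P) p⟩
  haveI : Group.IsSolvable (ramGroup K P 1) :=
    haveI := (isPGroup_ramGroup_one K P p).isNilpotent
    inferInstance
  obtain ⟨χ, hχ⟩ := exists_character K P
  haveI : Group.IsSolvable I := Group.isSolvable_of_ker_le_range
    (Subgroup.inclusion (H := ramGroup K P 1) (K := I)
      ((ramGroup_anti K P zero_le_one).trans (ramGroup_zero K P).le)) χ (fun g hg => by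
      rw [hχ, Subgroup.mem_subgroupOf] at hg
      exact ⟨⟨g.1, hg⟩, rfl⟩)
  haveI : Group.IsSolvable ((𝓞 L ⧸ P) ≃ₐ[𝓞 K ⧸ P.under (𝓞 K)] (𝓞 L ⧸ P)) :=
    Group.isSolvable_of_comm fun a c => (IsCyclic.isMulCommutative).is_comm.comm a c
  refine Group.isSolvable_of_ker_le_range
    (Subgroup.inclusion (H := I) (K := D) (Ideal.inertia_le_stabilizer P)) ψ fun g hg => ?_
  refine ⟨⟨g.1, ?_⟩, rfl⟩
  show g.1 ∈ P.inertia (L ≃ₐ[K] L)
  rw [← Ideal.Quotient.map_ker_stabilizer_subtype P (P.under (𝓞 K)) (G := L ≃ₐ[K] L)]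
  exact ⟨g, hg, rfl⟩

end FA.DecompositionGroups

end
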